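import Fermat.Statements.S20
import Fermat.Agent.S20.Exists
import Fermat.Agent.S20.Count
import Fermat.Agent.S20.Comb
import Fermat.Agent.S20.Separating

set_option autoImplicit false
open CuspForm

namespace Fermat.Agent.S20

open Fermat.Agent.S20lib MatrixGroups in
theorem result (N : ℕ) [NeZero N] :
    (Module.finrank ℂ (CuspForm (CongruenceSubgroup.Gamma0 N) 2) : ℚ) = ModularCurve.genusFormula N := by
  classical
  haveI : Fintype (SL(2, ℤ) ⧸ CongruenceSubgroup.Gamma0 N) := Fintype.ofFinite _
  have hneg : ∀ x : SL(2, ℤ) ⧸ CongruenceSubgroup.Gamma0 N, (-1 : SL(2, ℤ)) • x = x := by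
    intro x
    induction x using QuotientGroup.induction_on with
    | H g =>
      rw [MulAction.Quotient.smul_coe, QuotientGroup.eq]
      simp [CongruenceSubgroup.Gamma0_mem]
  obtain ⟨F, hF, hinj⟩ := exists_separating N
  obtain ⟨B⟩ := exists_goodBasis hneg ⟨12, F, hF, hinj⟩
  rw [finrank_cuspForm_eq, B.dimension_formula hneg, card_quot_Gamma0, card_fixed_S, card_fixed_ST,
    card_orbits_T, ModularCurve.genusFormula]

end Fermat.Agent.S20
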