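import Fermat.Statements.S21
import Fermat.Agent.S20
import Fermat.Agent.S20.Comb
import Fermat.Agent.S21.ParabolicDim
import Fermat.Agent.S21lib.Assembly

set_option autoImplicit false

open ModularCurve

namespace Fermat.Agent.S21

theorem result (N : ℕ) [NeZero N] :
    Function.Injective (ModularCurve.periodHomPair N) ∧
      LinearMap.range (ModularCurve.periodHomPair N) =
        ModularCurve.Period.parabolicHoms ℂ (CongruenceSubgroup.Gamma0 N) ℂ := by
  refine Fermat.Agent.S21lib.eichlerShimura_of_finrank_le N ?_
  have h1 := Fermat.Agent.S21lib.finrank_parabolicHoms_le_of_counts N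
    (Fermat.Agent.S20lib.card_quot_Gamma0 N) (Fermat.Agent.S20lib.card_fixed_S N)
    (Fermat.Agent.S20lib.card_fixed_ST N) (Fermat.Agent.S20lib.card_orbits_T N)
  rw [← Fermat.Agent.S20.result N] at h1
  exact_mod_cast h1

end Fermat.Agent.S21
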