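import Fermat.Statements.S02

set_option autoImplicit false
open FreyPackage

namespace Fermat.Agent.S02

/-- Coprime, `b` even, `a ≡ 3 mod 4`. -/
theorem aux_three (a b c : ℤ) (ha : a ≠ 0) (hb : b ≠ 0) (hc : c ≠ 0) (p : ℕ) (pp : p.Prime)
    (hp5 : 5 ≤ p) (H : a ^ p + b ^ p = c ^ p) (hgcd : gcd a b = 1)
    (hb2 : (2 : ℤ) ∣ b) (ha4 : a % 4 = 3) : Nonempty FreyPackage := by
  refine ⟨⟨a, b, c, ha, hb, hc, p, pp, hp5, H, hgcd, ?_, ?_⟩⟩
  · have h : ((a : ℤ) : ZMod 4) = ((3 : ℤ) : ZMod 4) := by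
      rw [ZMod.intCast_eq_intCast_iff]
      show a % 4 = 3 % 4
      omega
    rw [h]; rfl
  · exact (ZMod.intCast_zmod_eq_zero_iff_dvd b 2).2 (by exact_mod_cast hb2)

/-- Coprime, `b` even. -/
theorem aux_even (a b c : ℤ) (ha : a ≠ 0) (hb : b ≠ 0) (hc : c ≠ 0) (p : ℕ) (pp : p.Prime)
    (hp5 : 5 ≤ p) (H : a ^ p + b ^ p = c ^ p) (hgcd : gcd a b = 1)
    (hb2 : (2 : ℤ) ∣ b) : Nonempty FreyPackage := by
  have hodd : Odd p := pp.odd_of_ne_two (by omega)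
  have ha2 : ¬ (2 : ℤ) ∣ a := by
    intro h
    have h2 : (2 : ℤ) ∣ gcd a b := dvd_gcd h hb2
    rw [hgcd] at h2
    omega
  have h13 : a % 4 = 1 ∨ a % 4 = 3 := by omega
  rcases h13 with h1 | h3
  · refine aux_three (-a) (-b) (-c) (neg_ne_zero.2 ha) (neg_ne_zero.2 hb) (neg_ne_zero.2 hc)
      p pp hp5 ?_ ?_ ((dvd_neg).2 hb2) (by omega)
    · rw [hodd.neg_pow, hodd.neg_pow, hodd.neg_pow, ← H]; ring
    · rw [gcd_neg, neg_gcd]; exact hgcd
  · exact aux_three a b c ha hb hc p pp hp5 H hgcd hb2 h3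

/-- Coprime case. -/
theorem aux_coprime (a b c : ℤ) (ha : a ≠ 0) (hb : b ≠ 0) (hc : c ≠ 0) (p : ℕ) (pp : p.Prime)
    (hp5 : 5 ≤ p) (H : a ^ p + b ^ p = c ^ p) (hgcd : gcd a b = 1) : Nonempty FreyPackage := by
  have hodd : Odd p := pp.odd_of_ne_two (by omega)
  have hp0 : 0 < p := by omega
  by_cases hb2 : (2 : ℤ) ∣ b
  · exact aux_even a b c ha hb hc p pp hp5 H hgcd hb2
  by_cases ha2 : (2 : ℤ) ∣ a
  · exact aux_even b a c hb ha hc p pp hp5 (by rw [add_comm]; exact H)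
      (by rw [gcd_comm]; exact hgcd) ha2
  -- both odd, so `c` is even
  have hc2 : (2 : ℤ) ∣ c := by
    have hao : Odd a := by
      rw [← Int.not_even_iff_odd, even_iff_two_dvd]; exact ha2
    have hbo : Odd b := by
      rw [← Int.not_even_iff_odd, even_iff_two_dvd]; exact hb2
    have hce : Even (c ^ p) := by
      rw [← H]; exact (hao.pow).add_odd (hbo.pow)
    have := (Int.even_pow.1 hce).1
    exact even_iff_two_dvd.1 this
  refine aux_even a (-c) (-b) ha (neg_ne_zero.2 hc) (neg_ne_zero.2 hb) p pp hp5 ?_ ?_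
    ((dvd_neg).2 hc2)
  · rw [hodd.neg_pow, hodd.neg_pow, ← H]; ring
  · rw [gcd_neg, ← gcdab_eq_gcdac hp0 H]; exact hgcd

theorem result (a b c : ℤ) (ha : a ≠ 0) (hb : b ≠ 0) (hc : c ≠ 0) (p : ℕ) (pp : p.Prime) (hp5 : 5 ≤ p) (H : a ^ p + b ^ p = c ^ p) : Nonempty FreyPackage := by
  have hp0 : p ≠ 0 := by omega
  have hpos : 0 < Int.gcd a b := Int.gcd_pos_of_ne_zero_left b ha
  obtain ⟨g, a', b', hg, hcop, rfl, rfl⟩ := Int.exists_gcd_one' hpos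
  have hg0 : (g : ℤ) ≠ 0 := by exact_mod_cast hg.ne'
  have hgc : (g : ℤ) ∣ c := by
    rw [← Int.pow_dvd_pow_iff hp0, ← H, mul_pow, mul_pow, ← add_mul]
    exact dvd_mul_left _ _
  obtain ⟨c', rfl⟩ := hgc
  have ha' : a' ≠ 0 := left_ne_zero_of_mul ha
  have hb' : b' ≠ 0 := left_ne_zero_of_mul hb
  have hc' : c' ≠ 0 := right_ne_zero_of_mul hc
  refine aux_coprime a' b' c' ha' hb' hc' p pp hp5 ?_ ?_
  · have hgp : (g : ℤ) ^ p ≠ 0 := pow_ne_zero _ hg0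
    apply mul_left_cancel₀ hgp
    rw [mul_pow, mul_pow, mul_pow] at H
    linear_combination H
  · show ((Int.gcd a' b' : ℕ) : ℤ) = 1
    rw [hcop]; rfl

end Fermat.Agent.S02
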