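-- Statement S05: the mod-p Galois representation of the Frey curve is unramified at q ≠ 2, p.
import Fermat.Statements.S05
import Fermat.Agent.S05.Frey

set_option autoImplicit false
open WeierstrassCurve WeierstrassCurve.Affine WeierstrassCurve.Affine.Point
open CuspForm ModularFormClass UpperHalfPlane
open FreyPackage

namespace Fermat.Agent.S05

theorem result (P : FreyPackage) {q : ℕ} (hq : q.Prime) (hq2 : q ≠ 2) (hqp : q ≠ P.p) : P.GaloisRepUnramifiedAt q := by
  intro A hA σ hσ x
  apply Subtype.ext
  have hx : P.p • x.1 = 0 := by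
    have := x.2
    rw [Submodule.mem_torsionBy_iff] at this
    rw [← Nat.cast_smul_eq_nsmul ℤ]
    exact this
  exact Fermat.Agent.S05lib.frey_inertia_trivial hq hq2 hqp A hA σ hσ x.1 hx

end Fermat.Agent.S05
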