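import Fermat.Statements.S07
import Fermat.Prelude.Thm_ModularForm_sturm_bound_Gamma0
import Fermat.Prelude.Thm_CongruenceSubgroup_one_mem_strictPeriods_Gamma0

set_option autoImplicit false
open WeierstrassCurve WeierstrassCurve.Affine WeierstrassCurve.Affine.Point
open CuspForm ModularFormClass UpperHalfPlane
open ModularForm

namespace Fermat.Agent.S07

theorem index_Gamma0_two_le : (CongruenceSubgroup.Gamma0 2).index ≤ 4 := by
  let act : MulAction (Matrix.SpecialLinearGroup (Fin 2) ℤ) (Fin 2 → ZMod 2) :=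
    MulAction.compHom (Fin 2 → ZMod 2)
      (Matrix.SpecialLinearGroup.map (Int.castRingHom (ZMod 2)))
  have hstab : MulAction.stabilizer (Matrix.SpecialLinearGroup (Fin 2) ℤ)
      (![1, 0] : Fin 2 → ZMod 2) ≤ CongruenceSubgroup.Gamma0 2 := by
    intro g hg
    rw [MulAction.mem_stabilizer_iff] at hg
    rw [CongruenceSubgroup.Gamma0_mem]
    have h1 := congrFun hg 1
    change ((Matrix.SpecialLinearGroup.map (Int.castRingHom (ZMod 2)) g).1 • (![1, 0] : Fin 2 → ZMod 2)) 1 = _ at h1
    simpa [Matrix.smul_eq_mulVec, Matrix.mulVec, dotProduct, Fin.sum_univ_two] using h1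
  have hidx := MulAction.index_stabilizer (Matrix.SpecialLinearGroup (Fin 2) ℤ)
      (![1, 0] : Fin 2 → ZMod 2)
  have hcard : (MulAction.orbit (Matrix.SpecialLinearGroup (Fin 2) ℤ)
      (![1, 0] : Fin 2 → ZMod 2)).ncard ≤ 4 := by
    calc _ ≤ Nat.card (Fin 2 → ZMod 2) := Set.ncard_le_card _
      _ = 4 := by simp
  have hne : (MulAction.stabilizer (Matrix.SpecialLinearGroup (Fin 2) ℤ)
      (![1, 0] : Fin 2 → ZMod 2)).index ≠ 0 := by
    rw [hidx]
    have : (MulAction.orbit (Matrix.SpecialLinearGroup (Fin 2) ℤ)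
      (![1, 0] : Fin 2 → ZMod 2)).Nonempty := MulAction.nonempty_orbit _
    exact (Set.ncard_pos (Set.toFinite _)).mpr this |>.ne'
  calc (CongruenceSubgroup.Gamma0 2).index ≤ _ :=
        Nat.le_of_dvd (Nat.zero_lt_of_ne_zero hne) (Subgroup.index_dvd_of_le hstab)
    _ ≤ 4 := hidx ▸ hcard

theorem result (f : CuspForm (CongruenceSubgroup.Gamma0 2) 2) : f = 0 := by
  have hidx : (CongruenceSubgroup.Gamma0 2).index ≤ 4 := index_Gamma0_two_le
  apply CuspForm.toModularFormₗ_injective
  rw [_root_.map_zero]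
  apply ModularForm.sturm_bound_Gamma0 2
  intro n hn
  have hn0 : n = 0 := by
    have : ((2 : ℤ) * (((CongruenceSubgroup.Gamma0 2).index : ℕ) : ℤ)).toNat / 12 = 0 := by
      omega
    omega
  subst hn0
  exact CuspFormClass.qExpansion_coeff_zero f one_pos
    (CongruenceSubgroup.one_mem_strictPeriods_Gamma0 2)

end Fermat.Agent.S07
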