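import Fermat.Statements.S10
import Fermat.Agent.Kummer.Final
import Fermat.Agent.Kummer.KummerCert
import Fermat.Agent.Kummer.PID7
import Fermat.Agent.Kummer.PID13

set_option autoImplicit false
open WeierstrassCurve WeierstrassCurve.Affine WeierstrassCurve.Affine.Point
open CuspForm ModularFormClass UpperHalfPlane
open FreyPackage

namespace Fermat.Agent.S10

theorem result (P : FreyPackage) (hp : P.p = 5 ∨ P.p = 7 ∨ P.p = 13) : ¬ HasGaloisStableCofixedLine (K := AlgebraicClosure ℚ) ℚ P.freyCurve P.p := by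
  exfalso
  have : IsCyclotomicExtension {5} ℚ (CyclotomicField 5 ℚ) :=
    CyclotomicField.isCyclotomicExtension 5 ℚ
  have : IsCyclotomicExtension {7} ℚ (CyclotomicField 7 ℚ) :=
    CyclotomicField.isCyclotomicExtension 7 ℚ
  have : IsCyclotomicExtension {13} ℚ (CyclotomicField 13 ℚ) :=
    CyclotomicField.isCyclotomicExtension 13 ℚ
  have hcop : IsCoprime P.a P.b := Int.isCoprime_iff_gcd_eq_one.mpr (by
    have := P.hgcdab
    rw [← Int.coe_gcd] at this
    exact_mod_cast this)
  have hF := P.hFLT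
  rcases hp with hp | hp | hp
  · rw [hp] at hF
    exact Fermat.Agent.Kummer.flt_of_pid_of_kummerLemma (p := 5) (by norm_num)
      (IsCyclotomicExtension.Rat.five_pid _) Fermat.Agent.Kummer.kummerLemma_five
      P.a P.b P.c P.ha0 P.hb0 P.hc0 hcop hF
  · rw [hp] at hF
    exact Fermat.Agent.Kummer.flt_of_pid_of_kummerLemma (p := 7) (by norm_num)
      Fermat.Agent.Kummer.pid_seven Fermat.Agent.Kummer.kummerLemma_seven
      P.a P.b P.c P.ha0 P.hb0 P.hc0 hcop hF
  · rw [hp] at hF
    exact Fermat.Agent.Kummer.flt_of_pid_of_kummerLemma (p := 13) (by norm_num)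
      Fermat.Agent.Kummer.pid_thirteen Fermat.Agent.Kummer.kummerLemma_thirteen
      P.a P.b P.c P.ha0 P.hb0 P.hc0 hcop hF

end Fermat.Agent.S10
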