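import Fermat.Statements.S24
import Fermat.Agent.S24.RHMain
import Fermat.Agent.S24.Fibres
import Fermat.Agent.S24.FibreCusp
import Fermat.Agent.S20

set_option autoImplicit false
open ModularCurve

namespace Fermat.Agent.S24

open Fermat.Agent.S24lib in
theorem result (N : ℕ) [NeZero N]
    [AlgebraicCurve.HasCanonicalDivisor (K := AlgebraicClosure ℚ) (F := ↥(ModularCurve.modularFunctionFieldBar N))] :
    (AlgebraicCurve.genus (AlgebraicClosure ℚ) ↥(ModularCurve.modularFunctionFieldBar N) : ℚ)
      = ModularCurve.genusFormula N := by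
  classical
  haveI := finiteDimensional_J1 N
  have hfr := finrank_J1 N
  have hg := Fermat.Agent.S20.result N
  set g := Module.finrank ℂ (CuspForm (CongruenceSubgroup.Gamma0 N) 2) with hgdef
  have h1728 : (1728 : Kb) ≠ 0 := by norm_num
  have key := Fermat.Agent.S24RH.genus_eq_of_degree (K := Kb) (F := FN N) (J1 N)
    (transcendental_J1 N) ({0, 1728} : Finset Kb)
    (by
      intro a ha
      rw [Finset.mem_insert, Finset.mem_singleton, not_or] at ha
      rw [card_places_generic N a ha.1 ha.2, hfr]) g
    (by
      rw [Finset.sum_pair h1728.symm, hfr, card_places_cusp N]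
      have h2 := card_places_1728 N
      have h3 := card_places_zero N
      set c2 := Nat.card {v : AlgebraicCurve.Place Kb (FN N) //
        0 < v.ord (J1 N - algebraMap Kb (FN N) 1728)}
      set c3 := Nat.card {v : AlgebraicCurve.Place Kb (FN N) //
        0 < v.ord (J1 N - algebraMap Kb (FN N) 0)}
      unfold genusFormula at hg
      have h2' : (2 * c2 : ℚ) = dedekindPsi N + nuTwo N := by exact_mod_cast h2
      have h3' : (3 * c3 : ℚ) = dedekindPsi N + 2 * nuThree N := by exact_mod_cast h3
      have : ((2 * g : ℤ) - 2 : ℚ) = ((-(dedekindPsi N : ℤ) - (cuspCount N : ℤ)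
          + (((dedekindPsi N : ℤ) - (c3 : ℤ)) + ((dedekindPsi N : ℤ) - (c2 : ℤ))) : ℤ) : ℚ) := by
        push_cast
        linarith
      exact_mod_cast this)
  rw [key, hg]

end Fermat.Agent.S24
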