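import Fermat.Statements.S28
import Fermat.Agent.S28.ChartAlg
import Fermat.Agent.S28.Scheme

set_option autoImplicit false
open AlgebraicGeometry CategoryTheory CategoryTheory.Limits ModularCurve ModularCurve.IgusaScheme
noncomputable section
open ModularCurve ModularCurve.IgusaScheme

namespace Fermat.Agent.S28

set_option maxHeartbeats 4000000 in
set_option synthInstance.maxHeartbeats 400000 in
theorem result
    (N : ℕ) [NeZero N] (ℓ : ℕ) [Fact ℓ.Prime] (hℓN : ¬ ℓ ∣ N)
    (K : Type) [Field K] [CharP K ℓ] [Algebra ↥(GaloisRep.ratLocalizedAt ℓ) K] :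
    IsIntegral ↑(pullback (igusaTo N ℓ)
      (Spec.map (CommRingCat.ofHom (algebraMap ↥(GaloisRep.ratLocalizedAt ℓ) K)))) :=
  Fermat.Agent.S28lib.isIntegral_pullback_igusaTo N ℓ K
    (Fermat.Agent.S28lib.isDomain_chartAlg_tensor N ℓ hℓN K _ (Or.inl rfl))
    (Fermat.Agent.S28lib.isDomain_chartAlg_tensor N ℓ hℓN K _ (Or.inr (Or.inl rfl)))
    (Fermat.Agent.S28lib.isDomain_chartAlg_tensor N ℓ hℓN K _ (Or.inr (Or.inr rfl))).toNontrivial

end Fermat.Agent.S28
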