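-- Statement S37: `SpecializationExists` for `J₀(N)`.
import Fermat.Statements.S37
import Fermat.Agent.S37.AsmMain
import Fermat.Agent.S37.DV.Main
import Fermat.Agent.S37.HKMain
import Fermat.Agent.S37.Z0

set_option autoImplicit false
open ModularCurve

namespace Fermat.Agent.S37

theorem result (N p : ℕ) [NeZero N] (hcomm : ModularCurve.HeckeOperatorsCommuteBar N) : letI := ModularCurve.heckeModuleBar N; ∀ (_ : SMulCommClass (AlgebraicClosure ℚ ≃ₐ[ℚ] AlgebraicClosure ℚ) ModularCurve.HeckeAlg (ModularCurve.JZero N)), ModularCurve.SpecializationExists (K := ℚ) (L := AlgebraicClosure ℚ) N p (ModularCurve.JZero N) := by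
  refine Fermat.Agent.S37lib.specializationExists_of N p hcomm ?_
    (Fermat.Agent.S37lib.hasPrincipalDivisors_bar N) ?_ ?_
  · intro D hD m hm
    obtain ⟨h, E, hh, -, hE⟩ := Fermat.Agent.S37lib.DV.dv N hm D hD
    exact ⟨h, hh, fun v => ⟨E v, by rw [hE v]; ring⟩⟩
  · intro ℓ hℓ hℓN ζ hζ
    haveI : NeZero ℓ := ⟨hℓ.ne_zero⟩
    exact Fermat.Agent.S37lib.exists_heckeDiv hℓ hℓN hζ
  · intro ℓ hℓ hℓN r hr
    exact Fermat.Agent.S37lib.exists_isogeny N hℓ hℓN hr

end Fermat.Agent.S37
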