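-- Statement S49: Deligne–Serre lifting lemma.
import Fermat.Statements.S49
import Fermat.Agent.S49H.Hecke

set_option autoImplicit false
open CuspForm EisensteinWeightOne CongruenceSubgroup ModularFormClass
open FLT FLT.AbstractIntegralStructure

namespace Fermat.Agent.S49

open P2MW.S_CuspForm_intLattice_fg.W3WsD in
theorem result
    {N : ℕ} [NeZero N] (h : CuspForm.HasIntegralBasis N) {a : ℕ → ℤ}
    (heig : FormalHecke.IsEigensystem
      (fun ℓ => if ℓ ∣ N then 0 else ((chiNegThree ℓ : ℤ) : ℤ)) a)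
    (hreal : CuspForm.IsLatticeRealized N a) :
    ∃ (f : CuspForm (Gamma0 N) 2) (_ : f.IsNormalizedEigenform)
      (𝔪' : Ideal (integralClosure ℤ ℂ)), 𝔪'.IsMaximal ∧
      ((3 : ℕ) : integralClosure ℤ ℂ) ∈ 𝔪' ∧
      ∀ (ℓ : ℕ) (_ : ℓ.Prime) (_ : ¬ ℓ ∣ N),
        ∃ c : integralClosure ℤ ℂ, (c : ℂ) = ModularFormClass.qCoeff f ℓ ∧
          c - (a ℓ : integralClosure ℤ ℂ) ∈ 𝔪' := by
  classical
  obtain ⟨f₀, -, af, haf, hcong⟩ := hreal
  have haf' : ∀ n, (3 : ℤ) ∣ af n - a n := fun n => by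
    have := dvd_add (hcong n) (bridge_coeff a n)
    simpa using this
  have hfin : Module.Finite ℤ (CuspForm.heckeAlgebra N 2 ∅) := finite_heckeAlgebra h
  have hfd : FiniteDimensional ℂ (CuspForm (Gamma0 N) 2) := finiteDimensional_cuspForm N 2
  have hI : congIdeal f₀ ≠ ⊤ := by
    rw [Ideal.ne_top_iff_one]
    intro h1
    obtain ⟨m, hm⟩ := h1 1
    have hm' : qCoeff ⇑f₀ 1 = 3 * (m : ℂ) := hm
    rw [← haf 1] at hm'
    have hm'' : af 1 = 3 * m := by exact_mod_cast hm'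
    have h3 := haf' 1
    rw [heig.1, hm''] at h3
    omega
  obtain ⟨𝔪, h𝔪max, hI𝔪⟩ := Ideal.exists_le_maximal _ hI
  obtain ⟨g, lam, hg0, hgeig, hker⟩ := exists_eigen_of_maximal
    (φ := (CuspForm.heckeAlgebra N 2 ∅).val.toRingHom) Subtype.val_injective 𝔪
  obtain ⟨lam', 𝔪', hlam', h𝔪'max, hmem⟩ := exists_maximal_over lam 𝔪 hker
  have hgeig' : ∀ t : CuspForm.heckeAlgebra N 2 ∅,
      (t : Module.End ℂ (CuspForm (Gamma0 N) 2)) g = lam t • g := hgeig
  let e : ℕ → ℂ := fun ℓ => if ℓ ∣ N then 0 else (ℓ : ℂ)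
  let μ : ℕ → ℂ := fun ℓ => if hℓ : ℓ.Prime then
    (if hN : ℓ ∣ N then lam (CuspForm.heckeAlgebra.U hℓ hN (Set.notMem_empty ℓ))
      else lam (CuspForm.heckeAlgebra.T hℓ hN (Set.notMem_empty ℓ))) else 0
  have hrec : ∀ ℓ : ℕ, ℓ.Prime → ∀ n : ℕ,
      qCoeff ⇑g (ℓ * n) + e ℓ * (if ℓ ∣ n then qCoeff ⇑g (n / ℓ) else 0) = μ ℓ * qCoeff ⇑g n := by
    intro ℓ hℓ n
    by_cases hN : ℓ ∣ N
    · have h1 := hgeig' (CuspForm.heckeAlgebra.U hℓ hN (Set.notMem_empty ℓ))
      rw [CuspForm.heckeAlgebra.coe_U] at h1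
      have h2 := congrArg (fun F : CuspForm (Gamma0 N) 2 => qCoeff ⇑F n) h1
      simp only [qCoeff_heckeULin hℓ hN, qCoeff_csmul] at h2
      simp only [e, μ, dif_pos hℓ, dif_pos hN, if_pos hN, zero_mul, add_zero]
      exact h2
    · have h1 := hgeig' (CuspForm.heckeAlgebra.T hℓ hN (Set.notMem_empty ℓ))
      rw [CuspForm.heckeAlgebra.coe_T] at h1
      have h2 := congrArg (fun F : CuspForm (Gamma0 N) 2 => qCoeff ⇑F n) h1
      simp only [qCoeff_heckeTLin hℓ hN, qCoeff_csmul] at h2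
      simp only [e, μ, dif_pos hℓ, dif_neg hN, if_neg hN]
      exact h2
  have ha1 : qCoeff ⇑g 1 ≠ 0 := by
    intro h0
    exact hg0 (eq_zero_of_qCoeff g (eq_zero_of_rec (qCoeff_cusp_zero g) h0 hrec))
  set a₁ := qCoeff ⇑g 1 with ha₁
  set f : CuspForm (Gamma0 N) 2 := a₁⁻¹ • g with hf
  have hb : ∀ n, qCoeff ⇑f n = a₁⁻¹ * qCoeff ⇑g n := fun n => qCoeff_csmul _ _ _
  have hb1 : qCoeff ⇑f 1 = 1 := by
    rw [hb, ← ha₁]
    exact inv_mul_cancel₀ ha1
  have hbμ : ∀ ℓ : ℕ, ℓ.Prime → qCoeff ⇑f ℓ = μ ℓ := by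
    intro ℓ hℓ
    have h1 := hrec ℓ hℓ 1
    rw [if_neg (fun hd => hℓ.one_lt.ne' (Nat.dvd_one.mp hd)), mul_zero, add_zero, mul_one,
      ← ha₁] at h1
    rw [hb, h1]
    field_simp
  have hsys : FormalHecke.IsEigensystem e (fun n => qCoeff ⇑f n) := by
    refine ⟨hb1, fun ℓ hℓ n => ?_⟩
    have h1 := hrec ℓ hℓ n
    simp only []
    rw [hbμ ℓ hℓ, hb, hb n]
    have h2 : (if ℓ ∣ n then qCoeff ⇑f (n / ℓ) else 0) =
        a₁⁻¹ * (if ℓ ∣ n then qCoeff ⇑g (n / ℓ) else 0) := by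
      split_ifs
      · exact hb _
      · simp
    rw [h2]
    linear_combination a₁⁻¹ * h1
  have hnorm : f.IsNormalizedEigenform :=
    { qCoeff_one := hb1
      qCoeff_mul_of_coprime := IsEigensystem.mul_of_coprime hsys
      qCoeff_prime_pow_of_not_dvd := by
        intro p r hp hpN
        have := IsEigensystem.prime_pow hsys p r hp
        simpa only [e, if_neg hpN] using this
      qCoeff_prime_pow_of_dvd := by
        intro p r hp hpN
        have := IsEigensystem.prime_pow hsys p r hp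
        simpa only [e, if_pos hpN, zero_mul, sub_zero] using this }
  refine ⟨f, hnorm, 𝔪', h𝔪'max, ?_, ?_⟩
  · have h3 : (3 : CuspForm.heckeAlgebra N 2 ∅) ∈ congIdeal f₀ := by
      rw [mem_congIdeal]
      intro n
      refine ⟨af n, ?_⟩
      have : ((3 : CuspForm.heckeAlgebra N 2 ∅) : Module.End ℂ (CuspForm (Gamma0 N) 2)) f₀ =
          (3 : ℂ) • f₀ := by
        have h3' : ((3 : CuspForm.heckeAlgebra N 2 ∅) : Module.End ℂ (CuspForm (Gamma0 N) 2)) =
            (3 : Module.End ℂ (CuspForm (Gamma0 N) 2)) := rfl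
        rw [h3']
        have : (3 : Module.End ℂ (CuspForm (Gamma0 N) 2)) =
            (3 : ℂ) • (1 : Module.End ℂ (CuspForm (Gamma0 N) 2)) := by
          rw [← Algebra.algebraMap_eq_smul_one, map_ofNat]
        rw [this]; rfl
      rw [this, qCoeff_csmul, haf]
    have := hmem _ (hI𝔪 h3)
    rw [map_ofNat] at this
    simpa using this
  · intro ℓ hℓ hN
    refine ⟨lam' (CuspForm.heckeAlgebra.T hℓ hN (Set.notMem_empty ℓ)), ?_, ?_⟩
    · rw [hlam', hbμ ℓ hℓ]
      simp only [μ, dif_pos hℓ, dif_neg hN]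
    · have hT : CuspForm.heckeAlgebra.T hℓ hN (Set.notMem_empty ℓ) -
          ((a ℓ : ℤ) : CuspForm.heckeAlgebra N 2 ∅) ∈ congIdeal f₀ := by
        rw [mem_congIdeal]
        intro n
        have hval : ((CuspForm.heckeAlgebra.T hℓ hN (Set.notMem_empty ℓ) -
            ((a ℓ : ℤ) : CuspForm.heckeAlgebra N 2 ∅) : CuspForm.heckeAlgebra N 2 ∅) :
              Module.End ℂ (CuspForm (Gamma0 N) 2)) f₀ =
            CuspForm.heckeTLin 2 hℓ hN f₀ + (-(a ℓ : ℂ)) • f₀ := by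
          have h3' : (((a ℓ : ℤ) : CuspForm.heckeAlgebra N 2 ∅) :
              Module.End ℂ (CuspForm (Gamma0 N) 2)) =
              ((a ℓ : ℤ) : Module.End ℂ (CuspForm (Gamma0 N) 2)) := rfl
          have h4 : ((a ℓ : ℤ) : Module.End ℂ (CuspForm (Gamma0 N) 2)) =
              (a ℓ : ℂ) • (1 : Module.End ℂ (CuspForm (Gamma0 N) 2)) := by
            rw [← Algebra.algebraMap_eq_smul_one]; simp
          rw [Subalgebra.coe_sub, CuspForm.heckeAlgebra.coe_T, h3', h4, LinearMap.sub_apply,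
            LinearMap.smul_apply, Module.End.one_apply, neg_smul, sub_eq_add_neg]
        rw [hval, qCoeff_add, qCoeff_csmul, qCoeff_heckeTLin]
        have hrel := heig.2 ℓ hℓ n
        simp only [if_neg hN] at hrel
        have hχ := chiNegThree_cong ℓ
        by_cases hd : ℓ ∣ n
        · rw [if_pos hd] at hrel ⊢
          obtain ⟨x1, hx1⟩ := haf' (ℓ * n)
          obtain ⟨x2, hx2⟩ := haf' (n / ℓ)
          obtain ⟨x3, hx3⟩ := haf' n
          obtain ⟨x4, hx4⟩ := hχ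
          rw [← haf, ← haf, ← haf]
          refine ⟨x1 + x4 * af (n / ℓ) + chiNegThree ℓ * x2 - a ℓ * x3, ?_⟩
          have key : af (ℓ * n) + (ℓ : ℤ) * af (n / ℓ) + -(a ℓ) * af n =
              3 * (x1 + x4 * af (n / ℓ) + chiNegThree ℓ * x2 - a ℓ * x3) := by
            linear_combination hx1 + af (n / ℓ) * hx4 + chiNegThree ℓ * hx2 - a ℓ * hx3 + hrel
          exact_mod_cast key
        · rw [if_neg hd] at hrel ⊢
          obtain ⟨x1, hx1⟩ := haf' (ℓ * n)
          obtain ⟨x3, hx3⟩ := haf' n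
          rw [← haf, ← haf]
          refine ⟨x1 - a ℓ * x3, ?_⟩
          have key : af (ℓ * n) + (ℓ : ℤ) * 0 + -(a ℓ) * af n = 3 * (x1 - a ℓ * x3) := by
            linear_combination hx1 - a ℓ * hx3 + hrel
          exact_mod_cast key
      have := hmem _ (hI𝔪 hT)
      simpa using this

end Fermat.Agent.S49
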