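import Fermat.Statements.S51
import Fermat.Agent.S51lib.Main
import Fermat.Agent.S51lib.Descent
import Fermat.Agent.S51lib.Exist

set_option autoImplicit false
open WeierstrassCurve WeierstrassCurve.Affine WeierstrassCurve.Affine.Point
open CuspForm ModularFormClass UpperHalfPlane
open WeierstrassCurve

namespace Fermat.Agent.S51

theorem result (W : WeierstrassCurve ℤ) (hΔ : W.Δ ≠ 0) (hW : W.IsSemistableModel) : W.ModRepIsIrreducible 3 ∨ W.ModRepIsIrreducible 5 := by
  exact Fermat.Agent.S51lib.main_of Fermat.Agent.S51lib.rational_points_Ea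
    (fun E hE => Fermat.Agent.S51lib.exists_three_torsion E hE)
    (fun E hE => Fermat.Agent.S51lib.exists_five_torsion E hE) W hΔ hW

end Fermat.Agent.S51
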