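import Fermat.Statements.S57
import Fermat.Agent.S57Lib.PowerSeries
import Fermat.Agent.S57Lib.Free

set_option autoImplicit false
open Algebra Algebra.PatchingLevel

namespace Fermat.Agent.S57

open RingTheory.Sequence IsLocalRing MvPowerSeries Fermat.Agent.S57Lib

theorem repr_mem_of_mem_smul_top {ι R M : Type*} [CommRing R] [AddCommGroup M] [Module R M]
    (β : Module.Basis ι R M) (I : Ideal R) {x : M} (hx : x ∈ I • (⊤ : Submodule R M)) (i : ι) :
    β.repr x i ∈ I := by
  rw [← β.span_eq, Submodule.mem_ideal_smul_span_iff_exists_sum] at hx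
  obtain ⟨a, ha, rfl⟩ := hx
  have : β.repr (a.sum fun i c => c • β i) = a := by
    rw [← Finsupp.linearCombination_apply, β.repr_linearCombination]
  rw [this]; exact ha i

/-- The patched module is finite free over the (target) power series ring. -/
theorem finite_free_N
    {𝒪 : Type} [CommRing 𝒪] [IsDomain 𝒪] [IsDiscreteValuationRing 𝒪]
    {r : ℕ} {R : Type} [CommRing R] [Algebra 𝒪 R]
    {M : Type} [AddCommGroup M] [Module R M] [Nontrivial M]
    (L : Algebra.PatchingLevel 𝒪 r R M ⊥) :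
    Module.Finite (MvPowerSeries (Fin r) 𝒪) L.N ∧ Module.Free (MvPowerSeries (Fin r) 𝒪) L.N := by
  classical
  obtain ⟨ϖ, hϖ⟩ := IsDiscreteValuationRing.exists_irreducible 𝒪
  have hmax𝒪 : maximalIdeal 𝒪 = Ideal.span {ϖ} := hϖ.maximalIdeal_eq
  have hfin : Module.Finite (MvPowerSeries (Fin r) 𝒪) L.N := by
    rw [Module.finite_def, Submodule.fg_def]
    refine ⟨Set.range L.b, Set.finite_range _, ?_⟩
    rw [_root_.eq_top_iff]
    intro x _
    obtain ⟨c, rfl⟩ := L.b_span x
    exact Submodule.sum_mem _ fun i _ =>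
      Submodule.smul_mem _ _ (Submodule.subset_span (Set.mem_range_self i))
  refine ⟨hfin, ?_⟩
  have hR : Nontrivial R := by
    by_contra h
    rw [not_nontrivial_iff_subsingleton] at h
    have := Module.subsingleton R M
    exact not_subsingleton M this
  -- the semilinear additive equivalence
  let Φ : (Fin L.d → MvPowerSeries (Fin r) 𝒪) →+ L.N :=
    { toFun := fun c => ∑ i, L.φ (c i) • L.b i
      map_zero' := by simp
      map_add' := fun c c' => by simp [add_smul, Finset.sum_add_distrib] }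
  have hΦ : Function.Bijective Φ := by
    constructor
    · rw [injective_iff_map_eq_zero]
      intro c hc
      have := (L.b_rel c).1 hc
      ext1 i
      exact this i
    · intro x
      obtain ⟨c, rfl⟩ := L.b_span x
      exact ⟨c, rfl⟩
  let e : (Fin L.d → MvPowerSeries (Fin r) 𝒪) ≃+ L.N := AddEquiv.ofBijective Φ hΦ
  have he : ∀ (f : MvPowerSeries (Fin r) 𝒪) (c : Fin L.d → MvPowerSeries (Fin r) 𝒪),
      e (f • c) = L.φ f • e c := by
    intro f c
    change ∑ i, L.φ ((f • c) i) • L.b i = L.φ f • ∑ i, L.φ (c i) • L.b i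
    rw [Finset.smul_sum]
    refine Finset.sum_congr rfl fun i _ => ?_
    rw [Pi.smul_apply, smul_eq_mul, map_mul, mul_smul]
  let rs₀ : List (MvPowerSeries (Fin r) 𝒪) :=
    (List.finRange r).map (fun i => (X i : MvPowerSeries (Fin r) 𝒪)) ++ [C ϖ]
  have h1 : IsWeaklyRegular (MvPowerSeries (Fin r) 𝒪) rs₀ :=
    isWeaklyRegular_X_append_C r ϖ hϖ.ne_zero
  have h2 : IsWeaklyRegular (Fin L.d → MvPowerSeries (Fin r) 𝒪) rs₀ :=
    ((TensorProduct.rid (MvPowerSeries (Fin r) 𝒪)
      (Fin L.d → MvPowerSeries (Fin r) 𝒪)).isWeaklyRegular_congr rs₀).1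
      (h1.isWeaklyRegular_lTensor (M₂ := Fin L.d → MvPowerSeries (Fin r) 𝒪))
  have h3 : IsWeaklyRegular L.N (rs₀.map L.φ) :=
    (e.isWeaklyRegular_congr (List.forall₂_map_right_iff.mpr
      (List.forall₂_same.mpr fun f _ c => he f c))).1 h2
  have hXmem : ∀ i, L.φ (X i) ∈ maximalIdeal (MvPowerSeries (Fin r) 𝒪) := by
    intro i hu
    have := hu.map L.ψ
    rw [L.ψ_φ_X] at this
    exact not_isUnit_zero this
  have hCmem : L.φ (C ϖ) ∈ maximalIdeal (MvPowerSeries (Fin r) 𝒪) := by
    have : (C ϖ : MvPowerSeries (Fin r) 𝒪) = algebraMap 𝒪 _ ϖ := rfl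
    rw [this, AlgHom.commutes, ← this, mem_maximalIdeal, mem_nonunits_iff,
      isUnit_iff_constantCoeff, constantCoeff_C]
    exact hϖ.not_isUnit
  refine free_of_isWeaklyRegular (r + 1) (MvPowerSeries (Fin r) 𝒪) L.N
    (insert (C ϖ) (Finset.univ.image (fun i => (X i : MvPowerSeries (Fin r) 𝒪)))) ?_ ?_
    (rs₀.map L.φ) ?_ ?_ h3
  · refine (Finset.card_insert_le _ _).trans ?_
    have := Finset.card_image_le (s := (Finset.univ : Finset (Fin r)))
      (f := (fun i => (X i : MvPowerSeries (Fin r) 𝒪)))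
    rw [Finset.card_univ, Fintype.card_fin] at this
    omega
  · rw [maximalIdeal_mvPowerSeries_eq_span ϖ hmax𝒪]
    simp
  · simp [rs₀]
  · intro f hf
    obtain ⟨g, hg, rfl⟩ := List.mem_map.1 hf
    rcases List.mem_append.1 hg with hg | hg
    · obtain ⟨i, -, rfl⟩ := List.mem_map.1 hg
      exact hXmem i
    · rw [List.mem_singleton.1 hg]
      exact hCmem

theorem result
    {𝒪 : Type} [CommRing 𝒪] [IsDomain 𝒪] [IsDiscreteValuationRing 𝒪]
    {r : ℕ} {R : Type} [CommRing R] [Algebra 𝒪 R]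
    {M : Type} [AddCommGroup M] [Module R M] [Nontrivial M]
    (L : Algebra.PatchingLevel 𝒪 r R M ⊥) :
    Module.Free R M ∧ Module.annihilator R M = ⊥ ∧
      RingHom.ker L.ψ = Ideal.span (Set.range fun i : Fin r => L.φ (MvPowerSeries.X i)) := by
  classical
  obtain ⟨hfin, hfree⟩ := finite_free_N L
  let β := Module.Free.chooseBasis (MvPowerSeries (Fin r) 𝒪) L.N
  set I : Ideal (MvPowerSeries (Fin r) 𝒪) :=
    Ideal.span (Set.range fun i : Fin r => L.φ (MvPowerSeries.X i)) with hI
  have hIψ : ∀ f ∈ I, L.ψ f = 0 := by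
    intro f hf
    have : I ≤ RingHom.ker L.ψ := by
      rw [hI, Ideal.span_le]
      rintro _ ⟨i, rfl⟩
      exact L.ψ_φ_X i
    exact this hf
  have hπsum : ∀ f : _ → MvPowerSeries (Fin r) 𝒪,
      L.π (∑ i, f i • β i) = ∑ i, L.ψ (f i) • L.π (β i) := by
    intro f
    rw [map_sum]
    exact Finset.sum_congr rfl fun i _ => L.π_smul _ _
  have key : ∀ f : _ → MvPowerSeries (Fin r) 𝒪, L.π (∑ i, f i • β i) = 0 → ∀ i, f i ∈ I := by
    intro f hf i
    have h1 := repr_mem_of_mem_smul_top β I ((L.ker_π _).1 hf) i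
    rwa [β.repr_sum_self] at h1
  have hN : Nontrivial L.N := by
    obtain ⟨y, hy⟩ := exists_ne (0 : M)
    obtain ⟨x, rfl⟩ := L.π_surjective y
    exact ⟨x, 0, fun h => hy (by rw [h, map_zero])⟩
  obtain ⟨i₀⟩ : Nonempty (Module.Free.ChooseBasisIndex (MvPowerSeries (Fin r) 𝒪) L.N) :=
    β.index_nonempty
  have key1 : ∀ f : MvPowerSeries (Fin r) 𝒪, L.ψ f • L.π (β i₀) = 0 → f ∈ I := by
    intro f hf
    have := key (fun i => if i = i₀ then f else 0) (by
      rw [hπsum, Finset.sum_eq_single i₀]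
      · simpa using hf
      · intro j _ hj
        simp [hj]
      · intro h
        exact absurd (Finset.mem_univ _) h) i₀
    simpa using this
  have hli : LinearIndependent R (fun i => L.π (β i)) := by
    rw [Fintype.linearIndependent_iff]
    intro g hg i
    choose f hf using fun i => L.ψ_surjective (g i)
    rw [← hf i]
    apply hIψ
    apply key f
    rw [hπsum]
    simpa [hf] using hg
  have hsp : ⊤ ≤ Submodule.span R (Set.range fun i => L.π (β i)) := by
    intro y _
    obtain ⟨x, rfl⟩ := L.π_surjective y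
    rw [← β.sum_repr x, hπsum]
    exact Submodule.sum_mem _ fun i _ =>
      Submodule.smul_mem _ _ (Submodule.subset_span (Set.mem_range_self i))
  refine ⟨Module.Free.of_basis (Module.Basis.mk hli hsp), ?_, ?_⟩
  · rw [eq_bot_iff]
    intro a ha
    obtain ⟨f, rfl⟩ := L.ψ_surjective a
    rw [Ideal.mem_bot]
    exact hIψ f (key1 f (Module.mem_annihilator.1 ha _))
  · apply le_antisymm
    · intro f hf
      apply key1
      rw [RingHom.mem_ker] at hf
      change L.ψ f = 0 at hf
      rw [hf, zero_smul]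
    · intro f hf
      exact hIψ f hf

end Fermat.Agent.S57
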